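import Mathlib

set_option autoImplicit false
set_option linter.style.haveILetI false

namespace Fermat.Agent.S49

open Module

/-- Auxiliary induction for `FA_S49_exists_eigen_ker_le`: on a stable subspace `W` whose
annihilator is contained in the prime `𝔪`, there is a common eigenvector whose character
has kernel inside `𝔪`. -/
theorem FA_S49_eigen_aux {K V A : Type*} [Field K] [IsAlgClosed K] [AddCommGroup V] [Module K V]
    [FiniteDimensional K V] [CommRing A] (ρ : A →+* Module.End K V) (𝔪 : Ideal A)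
    [h𝔪 : 𝔪.IsPrime] :
    ∀ (n : ℕ) (W : Submodule K V), Module.finrank K W = n →
      (∀ t, ∀ w ∈ W, ρ t w ∈ W) →
      (∀ t, (∀ w ∈ W, ρ t w = 0) → t ∈ 𝔪) →
      ∃ (χ : A →+* K) (v : V), v ≠ 0 ∧ (∀ t, ρ t v = χ t • v) ∧ RingHom.ker χ ≤ 𝔪 := by
  intro n
  induction n using Nat.strong_induction_on with
  | _ n ih =>
    intro W hWn hstab hann
    have hcomm : ∀ s t : A, ∀ v : V, ρ s (ρ t v) = ρ t (ρ s v) := by
      intro s t v
      have h1 : ρ (s * t) v = ρ s (ρ t v) := by rw [map_mul]; rfl
      have h2 : ρ (t * s) v = ρ t (ρ s v) := by rw [map_mul]; rfl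
      rw [← h1, ← h2, mul_comm]
    have hWne : W ≠ ⊥ := by
      rintro rfl
      have h1 : (1 : A) ∈ 𝔪 := hann 1 (fun w hw => by
        rw [Submodule.mem_bot] at hw
        subst hw
        exact map_zero _)
      exact h𝔪.ne_top ((Ideal.eq_top_iff_one _).mpr h1)
    by_cases hsc : ∀ t, ∃ c : K, ∀ w ∈ W, ρ t w = c • w
    · obtain ⟨w₀, hw₀W, hw₀⟩ := Submodule.exists_mem_ne_zero_of_ne_bot hWne
      choose c hc using hsc
      have huniq : ∀ a b : K, a • w₀ = b • w₀ → a = b := by
        intro a b hab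
        by_contra hne
        have h0 : (a - b) • w₀ = 0 := by rw [sub_smul, hab, sub_self]
        rcases smul_eq_zero.mp h0 with h | h
        · exact hne (sub_eq_zero.mp h)
        · exact hw₀ h
      let χ : A →+* K :=
        { toFun := c
          map_one' := huniq _ _ (by rw [← hc 1 w₀ hw₀W, map_one, one_smul]; rfl)
          map_mul' := fun s t => huniq _ _ (by
            have h1 : ρ (s * t) w₀ = ρ s (ρ t w₀) := by rw [map_mul]; rfl
            rw [← hc (s * t) w₀ hw₀W, h1, hc t w₀ hw₀W, map_smul, hc s w₀ hw₀W, smul_smul,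
              mul_comm])
          map_zero' := huniq _ _ (by rw [← hc 0 w₀ hw₀W, map_zero, zero_smul]; rfl)
          map_add' := fun s t => huniq _ _ (by
            rw [← hc (s + t) w₀ hw₀W, map_add, LinearMap.add_apply, hc s w₀ hw₀W,
              hc t w₀ hw₀W, add_smul]) }
      refine ⟨χ, w₀, hw₀, fun t => hc t w₀ hw₀W, ?_⟩
      intro t ht
      apply hann t
      intro w hw
      have hct : c t = 0 := ht
      rw [hc t w hw, hct, zero_smul]
    · push Not at hsc
      obtain ⟨t₀, ht₀⟩ := hsc
      have : Nontrivial W := Submodule.nontrivial_iff_ne_bot.mpr hWne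
      obtain ⟨μ, hμ⟩ := Module.End.exists_eigenvalue ((ρ t₀).restrict (hstab t₀))
      obtain ⟨⟨w₀, hw₀W⟩, hw₀⟩ := hμ.exists_hasEigenvector
      have hw₀ne : w₀ ≠ 0 := fun h => hw₀.2 (Subtype.ext h)
      have hw₀eig : ρ t₀ w₀ = μ • w₀ := by
        have := hw₀.apply_eq_smul
        exact congrArg Subtype.val this
      -- the eigenspace inside W
      let W' : Submodule K V := W ⊓ LinearMap.ker (ρ t₀ - μ • (1 : Module.End K V))
      have hmemW' : ∀ w, w ∈ W' ↔ w ∈ W ∧ ρ t₀ w = μ • w := by
        intro w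
        simp only [W', Submodule.mem_inf, LinearMap.mem_ker, LinearMap.sub_apply,
          LinearMap.smul_apply, Module.End.one_apply, sub_eq_zero]
      have hW'le : W' ≤ W := inf_le_left
      have hW'lt : W' < W := by
        refine lt_of_le_of_ne hW'le ?_
        intro heq
        obtain ⟨w, hwW, hw⟩ := ht₀ μ
        have : w ∈ W' := heq ▸ hwW
        exact hw ((hmemW' w).mp this).2
      have hw₀W' : w₀ ∈ W' := (hmemW' w₀).mpr ⟨hw₀W, hw₀eig⟩
      have hW'stab : ∀ t, ∀ w ∈ W', ρ t w ∈ W' := by
        intro t w hw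
        rw [hmemW'] at hw ⊢
        refine ⟨hstab t w hw.1, ?_⟩
        rw [hcomm t₀ t w, hw.2, map_smul]
      have hW'rank : Module.finrank K W' < n := by
        rw [← hWn]
        exact Submodule.finrank_lt_finrank_of_lt hW'lt
      by_cases hannW' : ∀ t, (∀ w ∈ W', ρ t w = 0) → t ∈ 𝔪
      · exact ih _ hW'rank W' rfl hW'stab hannW'
      · push Not at hannW'
        obtain ⟨s, hs0, hs𝔪⟩ := hannW'
        let W'' : Submodule K V := W.map (ρ s)
        have hW''stab : ∀ t, ∀ w ∈ W'', ρ t w ∈ W'' := by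
          rintro t w ⟨u, huW, rfl⟩
          exact ⟨ρ t u, hstab t u huW, (hcomm t s u).symm⟩
        have hW''ann : ∀ t, (∀ w ∈ W'', ρ t w = 0) → t ∈ 𝔪 := by
          intro t ht
          have hts : t * s ∈ 𝔪 := by
            apply hann
            intro w hw
            have h1 : ρ (t * s) w = ρ t (ρ s w) := by rw [map_mul]; rfl
            rw [h1]
            exact ht _ ⟨w, hw, rfl⟩
          rcases h𝔪.mem_or_mem hts with h | h
          · exact h
          · exact absurd h hs𝔪
        have hW''rank : Module.finrank K W'' < n := by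
          rw [← hWn]
          have hrn := LinearMap.finrank_range_add_finrank_ker ((ρ s).domRestrict W)
          rw [LinearMap.range_domRestrict] at hrn
          have hkerpos : 0 < Module.finrank K (LinearMap.ker ((ρ s).domRestrict W)) := by
            rw [Module.finrank_pos_iff_exists_ne_zero]
            refine ⟨⟨⟨w₀, hw₀W⟩, ?_⟩, ?_⟩
            · rw [LinearMap.mem_ker, LinearMap.domRestrict_apply]
              exact hs0 w₀ hw₀W'
            · intro h
              apply hw₀ne
              have := congrArg (fun x : LinearMap.ker ((ρ s).domRestrict W) => ((x : W) : V)) h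
              simpa using this
          show Module.finrank K (W.map (ρ s)) < Module.finrank K W
          omega
        exact ih _ hW''rank W'' rfl hW''stab hW''ann

/-- **Common eigenvector with a prime constraint.** Let `A` be a commutative ring acting on a
finite-dimensional vector space `V` over an algebraically closed field via `ρ`, and let `𝔪` be a
prime ideal of `A` containing the kernel of the action. Then there is a common eigenvector whose
eigencharacter `χ : A →+* K` has kernel contained in `𝔪`. -/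
theorem FA_S49_exists_eigen_ker_le {K V A : Type*} [Field K] [IsAlgClosed K] [AddCommGroup V]
    [Module K V] [FiniteDimensional K V] [CommRing A] (ρ : A →+* Module.End K V) (𝔪 : Ideal A)
    [𝔪.IsPrime] (hker : RingHom.ker ρ ≤ 𝔪) :
    ∃ (χ : A →+* K) (v : V), v ≠ 0 ∧ (∀ t, ρ t v = χ t • v) ∧ RingHom.ker χ ≤ 𝔪 := by
  refine FA_S49_eigen_aux ρ 𝔪 _ ⊤ rfl (fun _ _ _ => Submodule.mem_top) ?_
  intro t ht
  apply hker
  rw [RingHom.mem_ker]
  ext v
  exact ht v Submodule.mem_top

/-- **Lying over.** If a character `χ : A →+* ℂ` has integral values and its kernel is contained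
in a maximal ideal `𝔪`, then there is a maximal ideal `𝔪'` of the ring of all algebraic integers
containing `χ 𝔪`. -/
theorem FA_S49_lying_over {A : Type*} [CommRing A] (χ : A →+* ℂ)
    (hint : ∀ t, IsIntegral ℤ (χ t)) (𝔪 : Ideal A) [h𝔪 : 𝔪.IsMaximal]
    (hker : RingHom.ker χ ≤ 𝔪) :
    ∃ 𝔪' : Ideal (integralClosure ℤ ℂ), 𝔪'.IsMaximal ∧
      ∀ t ∈ 𝔪, ∃ c : integralClosure ℤ ℂ, (c : ℂ) = χ t ∧ c ∈ 𝔪' := by
  let χ' : A →+* integralClosure ℤ ℂ := χ.codRestrict (integralClosure ℤ ℂ).toSubring hint
  have hχ' : ∀ t, ((χ' t : integralClosure ℤ ℂ) : ℂ) = χ t := fun _ => rfl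
  letI : Algebra A (integralClosure ℤ ℂ) := χ'.toAlgebra
  have halg : ∀ t, algebraMap A (integralClosure ℤ ℂ) t = χ' t := fun _ => rfl
  haveI : Algebra.IsIntegral A (integralClosure ℤ ℂ) := by
    refine ⟨fun x => ?_⟩
    have hx : IsIntegral ℤ x := by
      have := x.2
      exact (isIntegral_algebraMap_iff (Subtype.val_injective :
        Function.Injective (algebraMap (integralClosure ℤ ℂ) ℂ))).mp this
    exact hx.tower_top
  have hcomap : Ideal.comap (algebraMap A (integralClosure ℤ ℂ)) ⊥ ≤ 𝔪 := by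
    intro t ht
    apply hker
    rw [Ideal.mem_comap, Ideal.mem_bot, halg] at ht
    rw [RingHom.mem_ker, ← hχ', ht]
    rfl
  obtain ⟨Q, -, hQprime, hQ⟩ := Ideal.exists_ideal_over_prime_of_isIntegral 𝔪 ⊥ hcomap
  have hQmax : Q.IsMaximal :=
    Ideal.isMaximal_of_isIntegral_of_isMaximal_comap (R := A) Q (by rw [hQ]; exact h𝔪)
  refine ⟨Q, hQmax, fun t ht => ⟨χ' t, hχ' t, ?_⟩⟩
  have : t ∈ Ideal.comap (algebraMap A (integralClosure ℤ ℂ)) Q := by rw [hQ]; exact ht
  exact this

end Fermat.Agent.S49
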