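import Fermat.Agent.S49.Hecke

/-!
# Integrality of Hecke eigenvalues (for `Fermat.Agent.S49`)
-/

set_option autoImplicit false

namespace Fermat.Agent.S49

open CuspForm ModularFormClass CongruenceSubgroup UpperHalfPlane Polynomial

variable {N : ℕ}

/-- `aeval` of an integer polynomial at an endomorphism, evaluated on an eigenvector. -/
theorem FA_S49_aeval_eigen {V : Type*} [AddCommGroup V] [Module ℂ V] (t : Module.End ℂ V)
    {v : V} {c : ℂ} (hc : t v = c • v) (q : ℤ[X]) :
    (aeval t q) v = (aeval c q) • v := by
  have hpow : ∀ n : ℕ, (t ^ n) v = c ^ n • v := by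
    intro n
    induction n with
    | zero => simp
    | succ n ih =>
      rw [pow_succ, Module.End.mul_apply, hc, map_smul, ih, smul_smul, pow_succ, mul_comm]
  induction q using Polynomial.induction_on' with
  | add p q hp hq => rw [map_add, map_add, LinearMap.add_apply, hp, hq, add_smul]
  | monomial n a =>
    rw [aeval_monomial, aeval_monomial, Module.End.mul_apply, hpow, Algebra.algebraMap_eq_smul_one,
      LinearMap.smul_apply, Module.End.one_apply, ← Int.cast_smul_eq_zsmul ℂ a,
      smul_smul]
    simp

/-- `aeval` of an integer polynomial at an endomorphism preserving a `ℤ`-submodule `L`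
agrees on `L` with `aeval` at the restricted endomorphism. -/
theorem FA_S49_aeval_restrict {V : Type*} [AddCommGroup V] [Module ℂ V] (t : Module.End ℂ V)
    (L : Submodule ℤ V) (hL : ∀ x ∈ L, t x ∈ L) (q : ℤ[X]) (x : L) :
    (aeval t q) (x : V) =
      ((aeval ((t.restrictScalars ℤ).restrict hL) q) x : V) := by
  have hpow : ∀ (n : ℕ) (x : L),
      (t ^ n) (x : V) = ((((t.restrictScalars ℤ).restrict hL) ^ n) x : V) := by
    intro n
    induction n with
    | zero => intro x; simp
    | succ n ih =>
      intro x
      rw [pow_succ, Module.End.mul_apply, pow_succ, Module.End.mul_apply, ← ih]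
      rfl
  induction q using Polynomial.induction_on' with
  | add p q hp hq =>
    rw [map_add, map_add, LinearMap.add_apply, LinearMap.add_apply, Submodule.coe_add, hp, hq]
  | monomial n a =>
    rw [aeval_monomial, aeval_monomial, Module.End.mul_apply, Module.End.mul_apply, hpow,
      Algebra.algebraMap_eq_smul_one, Algebra.algebraMap_eq_smul_one,
      LinearMap.smul_apply, LinearMap.smul_apply, Module.End.one_apply, Module.End.one_apply,
      Submodule.coe_smul]

/-- (H4) Eigenvalues of Hecke operators on `S₂(Γ₀(N))` are algebraic integers, provided the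
integral forms span. -/
theorem FA_S49_isIntegral_eigenvalue [NeZero N] (h : CuspForm.HasIntegralBasis N)
    {t : Module.End ℂ (CuspForm (Gamma0 N) 2)} (ht : t ∈ CuspForm.heckeAlgebra N 2 ∅)
    {v : CuspForm (Gamma0 N) 2} (hv : v ≠ 0) {c : ℂ} (hc : t v = c • v) : IsIntegral ℤ c := by
  set L : Submodule ℤ (CuspForm (Gamma0 N) 2) := CuspForm.intLattice N 2 with hLdef
  have hL : ∀ x ∈ L, t x ∈ L := fun x hx =>
    CuspForm.mem_intLattice_of_mem_heckeAlgebra (by norm_num) ht hx
  have : Module.Finite ℤ L := Module.Finite.iff_fg.2 (CuspForm.intLattice_fg N 2)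
  obtain ⟨p, hmonic, hp⟩ := LinearMap.exists_monic_and_aeval_eq_zero ℤ
    ((t.restrictScalars ℤ).restrict hL)
  -- `aeval t p` kills `L`
  have hkill : ∀ x ∈ L, (aeval t p) x = 0 := by
    intro x hx
    have := FA_S49_aeval_restrict t L hL p ⟨x, hx⟩
    rw [hp] at this
    simpa using this
  -- hence it kills everything
  have hzero : aeval t p = 0 := by
    have hspan : Submodule.span ℂ (CuspForm.qIntegralSet N) = ⊤ := h
    have hle : Submodule.span ℂ (CuspForm.qIntegralSet N) ≤ LinearMap.ker (aeval t p) := by
      rw [Submodule.span_le]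
      intro f hf
      rw [SetLike.mem_coe, LinearMap.mem_ker]
      apply hkill
      rw [hLdef, FA_S49_mem_intLattice_iff]
      exact (FA_S49_mem_qIntegralSet_iff f).1 hf
    rw [hspan, top_le_iff] at hle
    exact LinearMap.ker_eq_top.1 hle
  have h1 := FA_S49_aeval_eigen t hc p
  rw [hzero, LinearMap.zero_apply] at h1
  have h2 : aeval c p = 0 := by
    rcases smul_eq_zero.1 h1.symm with h | h
    · exact h
    · exact absurd h hv
  exact ⟨p, hmonic, by rwa [← aeval_def]⟩

end Fermat.Agent.S49
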