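import Mathlib

/-!
# Sequences satisfying Hecke relations (for `Fermat.Agent.S49`)
-/

set_option autoImplicit false

namespace Fermat.Agent.S49

/-- The Hecke relation for a sequence `c`, eigenvalues `lam` and "character" `ε`. -/
def FA_S49_HeckeRel (ε lam : ℕ → ℂ) (c : ℕ → ℂ) : Prop :=
  ∀ ℓ : ℕ, ℓ.Prime → ∀ n : ℕ,
    c (n * ℓ) + (if ℓ ∣ n then ε ℓ * c (n / ℓ) else 0) = lam ℓ * c n

theorem FA_S49_seq_eq_zero {ε lam c : ℕ → ℂ} (hR : FA_S49_HeckeRel ε lam c) (h0 : c 0 = 0)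
    (h1 : c 1 = 0) : ∀ n, c n = 0 := by
  intro n
  induction n using Nat.strong_induction_on with
  | _ n ih =>
    rcases Nat.lt_or_ge n 2 with hn | hn
    · interval_cases n
      · exact h0
      · exact h1
    · have hℓ : (Nat.minFac n).Prime := Nat.minFac_prime (by omega)
      have hdvd : Nat.minFac n ∣ n := Nat.minFac_dvd n
      set ℓ := Nat.minFac n
      have hℓ2 : 2 ≤ ℓ := hℓ.two_le
      have hm : n / ℓ < n := Nat.div_lt_self (by omega) hℓ2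
      have hmm : n / ℓ / ℓ < n := lt_of_le_of_lt (Nat.div_le_self _ _) hm
      have := hR ℓ hℓ (n / ℓ)
      rw [Nat.div_mul_cancel hdvd, ih _ hm, ih _ hmm] at this
      simpa using this

theorem FA_S49_seq_lam {ε lam c : ℕ → ℂ} (hR : FA_S49_HeckeRel ε lam c) (h1 : c 1 = 1)
    {ℓ : ℕ} (hℓ : ℓ.Prime) : c ℓ = lam ℓ := by
  have := hR ℓ hℓ 1
  rw [one_mul, if_neg (by simpa using hℓ.ne_one), add_zero, h1, mul_one] at this
  exact this

theorem FA_S49_seq_prime_pow {ε lam c : ℕ → ℂ} (hR : FA_S49_HeckeRel ε lam c) (h1 : c 1 = 1)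
    {ℓ : ℕ} (hℓ : ℓ.Prime) (r : ℕ) :
    c (ℓ ^ (r + 2)) = c ℓ * c (ℓ ^ (r + 1)) - ε ℓ * c (ℓ ^ r) := by
  have := hR ℓ hℓ (ℓ ^ (r + 1))
  rw [if_pos (dvd_pow_self ℓ (by omega)), ← pow_succ, ← FA_S49_seq_lam hR h1 hℓ] at this
  have hdiv : ℓ ^ (r + 1) / ℓ = ℓ ^ r := by
    rw [pow_succ, Nat.mul_div_cancel _ hℓ.pos]
  rw [hdiv] at this
  rw [← this]
  ring

theorem FA_S49_seq_prime_pow_mul {ε lam c : ℕ → ℂ} (hR : FA_S49_HeckeRel ε lam c) (h1 : c 1 = 1)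
    {ℓ : ℕ} (hℓ : ℓ.Prime) {m : ℕ} (hm : ¬ ℓ ∣ m) :
    ∀ k : ℕ, c (ℓ ^ k * m) = c (ℓ ^ k) * c m ∧ c (ℓ ^ (k + 1) * m) = c (ℓ ^ (k + 1)) * c m := by
  have hbase1 : c (ℓ ^ 1 * m) = c (ℓ ^ 1) * c m := by
    have := hR ℓ hℓ m
    rw [if_neg hm, add_zero, ← FA_S49_seq_lam hR h1 hℓ] at this
    rw [pow_one, mul_comm ℓ m]
    exact this
  intro k
  induction k with
  | zero =>
    refine ⟨by simp [h1], ?_⟩
    simpa using hbase1
  | succ k ih =>
    refine ⟨ih.2, ?_⟩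
    have := hR ℓ hℓ (ℓ ^ (k + 1) * m)
    have hd : ℓ ∣ ℓ ^ (k + 1) * m := Dvd.dvd.mul_right (dvd_pow_self ℓ (by omega)) m
    have hdiv : ℓ ^ (k + 1) * m / ℓ = ℓ ^ k * m := by
      rw [pow_succ, mul_right_comm, Nat.mul_div_cancel _ hℓ.pos]
    rw [if_pos hd, hdiv, ih.1, ih.2, ← FA_S49_seq_lam hR h1 hℓ] at this
    have e : ℓ ^ (k + 1 + 1) * m = ℓ ^ (k + 1) * m * ℓ := by ring
    rw [e, FA_S49_seq_prime_pow hR h1 hℓ k]
    linear_combination this

theorem FA_S49_seq_mul_of_coprime {ε lam c : ℕ → ℂ} (hR : FA_S49_HeckeRel ε lam c) (h0 : c 0 = 0)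
    (h1 : c 1 = 1) : ∀ m n : ℕ, m.Coprime n → c (m * n) = c m * c n := by
  intro m
  induction m using Nat.recOnPosPrimePosCoprime with
  | prime_pow p k hp hk =>
    intro n hn
    have hpn : ¬ p ∣ n := by
      intro h
      have : p ∣ Nat.gcd (p ^ k) n := Nat.dvd_gcd (dvd_pow_self p hk.ne') h
      rw [Nat.Coprime] at hn
      rw [hn] at this
      exact hp.one_lt.ne' (Nat.dvd_one.1 this)
    exact (FA_S49_seq_prime_pow_mul hR h1 hp hpn k).1
  | zero =>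
    intro n hn
    rw [Nat.coprime_zero_left] at hn
    subst hn
    simp [h0]
  | one =>
    intro n _
    simp [h1]
  | coprime a b _ _ hab ha hb =>
    intro n hn
    have han : a.Coprime n := Nat.Coprime.coprime_mul_right hn
    have hbn : b.Coprime n := Nat.Coprime.coprime_mul_left hn
    have habn : a.Coprime (b * n) := Nat.Coprime.mul_right hab han
    rw [mul_assoc, ha (b * n) habn, hb n hbn, ha b hab]
    ring

end Fermat.Agent.S49
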