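import Fermat.Agent.S49.Mod3
import Fermat.Agent.S49.Seq

/-!
# From a common Hecke eigenvector to a normalised eigenform (for `Fermat.Agent.S49`)
-/

set_option autoImplicit false

namespace Fermat.Agent.S49

open CuspForm ModularFormClass CongruenceSubgroup UpperHalfPlane

variable {N : ℕ}

/-- (H5) A nonzero common eigenvector of all `T_ℓ`, `U_ℓ` can be normalised to a normalised
eigenform whose `ℓ`-th coefficient is the eigenvalue. -/
theorem FA_S49_normalized [NeZero N] {v : CuspForm (Gamma0 N) 2} (hv : v ≠ 0)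
    {lam : Nat.Primes → ℂ}
    (hlam : ∀ ℓ : Nat.Primes, FA_S49_rho N (MvPolynomial.X ℓ) v = lam ℓ • v) :
    ∃ g : CuspForm (Gamma0 N) 2, g.IsNormalizedEigenform ∧
      ∀ ℓ : Nat.Primes, qCoeff ⇑g ℓ = lam ℓ := by
  classical
  set ε : ℕ → ℂ := fun ℓ => if ℓ ∣ N then 0 else (ℓ : ℂ) with hε
  set lam' : ℕ → ℂ := fun ℓ => if h : ℓ.Prime then lam ⟨ℓ, h⟩ else 0 with hlam'
  set c : ℕ → ℂ := fun n => qCoeff ⇑v n with hc
  have hR : FA_S49_HeckeRel ε lam' c := by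
    intro ℓ hℓ n
    have h1 := FA_S49_qCoeff_rho_X ⟨ℓ, hℓ⟩ v n
    rw [hlam ⟨ℓ, hℓ⟩, FA_S49_qCoeff_smul] at h1
    simp only [hlam', dif_pos hℓ, hc, hε]
    rw [h1]
    change qCoeff ⇑v (n * ℓ) + (if ℓ ∣ n then (if ℓ ∣ N then 0 else (ℓ : ℂ)) * qCoeff ⇑v (n / ℓ)
      else 0) = qCoeff ⇑v (n * ℓ) +
        (if ℓ ∣ N then 0 else if ℓ ∣ n then (ℓ : ℂ) * qCoeff ⇑v (n / ℓ) else 0)
    congr 1
    by_cases hN : ℓ ∣ N
    · simp [hN]
    · simp [hN]
  have h0 : c 0 = 0 := FA_S49_qCoeff_zero v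
  have h1 : c 1 ≠ 0 := by
    intro h1
    exact hv (FA_S49_eq_zero_of_qCoeff v (FA_S49_seq_eq_zero hR h0 h1))
  -- normalise
  set g : CuspForm (Gamma0 N) 2 := (c 1)⁻¹ • v with hg
  set c' : ℕ → ℂ := fun n => qCoeff ⇑g n with hc'
  have hcc' : ∀ n, c' n = (c 1)⁻¹ * c n := fun n => FA_S49_qCoeff_smul _ v n
  have hR' : FA_S49_HeckeRel ε lam' c' := by
    intro ℓ hℓ n
    have := hR ℓ hℓ n
    rw [hcc', hcc', hcc']
    split_ifs at this ⊢ with hd
    · linear_combination (c 1)⁻¹ * this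
    · linear_combination (c 1)⁻¹ * this
  have h0' : c' 0 = 0 := by rw [hcc', h0, mul_zero]
  have h1' : c' 1 = 1 := by rw [hcc', inv_mul_cancel₀ h1]
  refine ⟨g, ⟨h1', FA_S49_seq_mul_of_coprime hR' h0' h1', ?_, ?_⟩, ?_⟩
  · intro p r hp hpN
    have := FA_S49_seq_prime_pow hR' h1' hp r
    simp only [hε, if_neg hpN] at this
    exact this
  · intro p r hp hpN
    have := FA_S49_seq_prime_pow hR' h1' hp r
    simp only [hε, if_pos hpN, zero_mul, sub_zero] at this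
    exact this
  · intro ℓ
    have := FA_S49_seq_lam hR' h1' ℓ.2
    simp only [hlam', dif_pos ℓ.2] at this
    exact this

end Fermat.Agent.S49
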