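import Mathlib

/-!
# Common eigenvectors for a commutative ring acting on a finite-dimensional complex vector space

Abstract part of the Deligne–Serre lifting lemma (for `Fermat.Agent.S49`).
-/

set_option autoImplicit false

namespace Fermat.Agent.S49

open Module

/-- Auxiliary induction for `FA_S49_exists_eigenvector`. -/
theorem FA_S49_exists_eigenvector_aux {R : Type*} [CommRing R] {V : Type*} [AddCommGroup V]
    [Module ℂ V] [FiniteDimensional ℂ V] (ρ : R →+* Module.End ℂ V) (𝔪 : Ideal R) [𝔪.IsPrime] :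
    ∀ (n : ℕ) (W : Submodule ℂ V), Module.finrank ℂ W = n → W ≠ ⊥ →
      (∀ t : R, ∀ w ∈ W, ρ t w ∈ W) →
      (∀ t : R, (∀ w ∈ W, ρ t w = 0) → t ∈ 𝔪) →
      ∃ (g : V) (χ : R → ℂ), g ≠ 0 ∧ (∀ t, ρ t g = χ t • g) ∧ ∀ t, χ t = 0 → t ∈ 𝔪 := by
  intro n
  induction n using Nat.strong_induction_on with
  | _ n ih =>
  intro W hn hW hstab hann
  by_cases hsc : ∀ t : R, ∃ c : ℂ, ∀ w ∈ W, ρ t w = c • w
  · -- every element acts as a scalar on `W`
    choose χ hχ using hsc
    obtain ⟨g, hgW, hg0⟩ := (Submodule.ne_bot_iff W).1 hW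
    refine ⟨g, χ, hg0, fun t => hχ t g hgW, fun t ht => hann t fun w hw => ?_⟩
    rw [hχ t w hw, ht, zero_smul]
  · -- some `t` is not a scalar on `W`
    push Not at hsc
    obtain ⟨t, ht⟩ := hsc
    have : Nontrivial W := Submodule.nontrivial_iff_ne_bot.2 hW
    obtain ⟨c, hc⟩ := Module.End.exists_eigenvalue ((ρ t).restrict (hstab t))
    obtain ⟨⟨v, hvW⟩, hv⟩ := hc.exists_hasEigenvector
    have hv0 : v ≠ 0 := fun h => hv.2 (Subtype.ext h)
    have hvc : ρ t v = c • v := by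
      have := hv.apply_eq_smul
      exact congrArg Subtype.val this
    -- the operator `D = ρ t - c`
    set D : Module.End ℂ V := ρ t - c • (1 : Module.End ℂ V) with hD
    have hDapp : ∀ w, D w = ρ t w - c • w := fun w => by simp [hD]
    have hDcomm : ∀ s : R, ∀ w, ρ s (D w) = D (ρ s w) := by
      intro s w
      have hst : ρ s (ρ t w) = ρ t (ρ s w) := by
        have h1 : ρ s * ρ t = ρ t * ρ s := by rw [← map_mul, ← map_mul, mul_comm]
        exact congrArg (fun f : Module.End ℂ V => f w) h1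
      rw [hDapp, hDapp, map_sub, map_smul, hst]
    have hDW : ∀ w ∈ W, D w ∈ W := fun w hw => by
      rw [hDapp]; exact W.sub_mem (hstab t w hw) (W.smul_mem c hw)
    -- the two subspaces
    set W₁ : Submodule ℂ V := W ⊓ LinearMap.ker D with hW₁
    set W₂ : Submodule ℂ V := W.map D with hW₂
    have hmem₁ : ∀ w, w ∈ W₁ ↔ w ∈ W ∧ D w = 0 := fun w => by
      rw [hW₁, Submodule.mem_inf, LinearMap.mem_ker]
    have hW₁le : W₁ ≤ W := inf_le_left
    have hW₂le : W₂ ≤ W := by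
      rintro _ ⟨w, hw, rfl⟩
      exact hDW w hw
    have hW₁ne : W₁ ≠ ⊥ := by
      intro h
      have : v ∈ W₁ := (hmem₁ v).2 ⟨hvW, by rw [hDapp, hvc, sub_self]⟩
      rw [h] at this
      exact hv0 ((Submodule.mem_bot ℂ).1 this)
    obtain ⟨w₀, hw₀W, hw₀⟩ := ht c
    have hW₂ne : W₂ ≠ ⊥ := by
      intro h
      have : D w₀ ∈ W₂ := ⟨w₀, hw₀W, rfl⟩
      rw [h, Submodule.mem_bot, hDapp, sub_eq_zero] at this
      exact hw₀ this
    have hW₁lt : W₁ < W := by
      refine lt_of_le_of_ne hW₁le fun h => ?_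
      have : w₀ ∈ W₁ := h ▸ hw₀W
      have := ((hmem₁ w₀).1 this).2
      rw [hDapp, sub_eq_zero] at this
      exact hw₀ this
    have hW₂lt : W₂ < W := by
      refine lt_of_le_of_ne hW₂le fun h => ?_
      -- `D` restricted to `W` is surjective, hence injective, but `v` is in the kernel
      have hsurj : Function.Surjective (D.restrict hDW) := by
        rintro ⟨y, hy⟩
        rw [← h] at hy
        obtain ⟨x, hx, rfl⟩ := hy
        exact ⟨⟨x, hx⟩, rfl⟩
      have hinj : Function.Injective (D.restrict hDW) :=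
        LinearMap.injective_iff_surjective.2 hsurj
      have h0 : D.restrict hDW ⟨v, hvW⟩ = D.restrict hDW 0 := by
        apply Subtype.ext
        simp [LinearMap.restrict_apply, hDapp, hvc]
      exact hv0 (congrArg Subtype.val (hinj h0))
    have hfr₁ : Module.finrank ℂ W₁ < n := hn ▸ Submodule.finrank_lt_finrank_of_lt hW₁lt
    have hfr₂ : Module.finrank ℂ W₂ < n := hn ▸ Submodule.finrank_lt_finrank_of_lt hW₂lt
    have hstab₁ : ∀ s : R, ∀ w ∈ W₁, ρ s w ∈ W₁ := by
      intro s w hw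
      rw [hmem₁] at hw ⊢
      refine ⟨hstab s w hw.1, ?_⟩
      rw [← hDcomm, hw.2, map_zero]
    have hstab₂ : ∀ s : R, ∀ w ∈ W₂, ρ s w ∈ W₂ := by
      rintro s _ ⟨w, hw, rfl⟩
      exact ⟨ρ s w, hstab s w hw, (hDcomm s w).symm⟩
    by_cases hann₁ : ∀ r : R, (∀ w ∈ W₁, ρ r w = 0) → r ∈ 𝔪
    · exact ih _ hfr₁ W₁ rfl hW₁ne hstab₁ hann₁
    by_cases hann₂ : ∀ s : R, (∀ w ∈ W₂, ρ s w = 0) → s ∈ 𝔪
    · exact ih _ hfr₂ W₂ rfl hW₂ne hstab₂ hann₂
    exfalso
    push Not at hann₁ hann₂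
    obtain ⟨r, hr, hr𝔪⟩ := hann₁
    obtain ⟨s, hs, hs𝔪⟩ := hann₂
    have hrs : r * s ∈ 𝔪 := by
      apply hann
      intro w hw
      rw [map_mul, Module.End.mul_apply]
      apply hr
      rw [hmem₁]
      refine ⟨hstab s w hw, ?_⟩
      rw [← hDcomm]
      exact hs _ ⟨w, hw, rfl⟩
    rcases Ideal.IsPrime.mem_or_mem inferInstance hrs with h | h
    · exact hr𝔪 h
    · exact hs𝔪 h

/-- A commutative ring `R` acting faithfully on a nonzero finite-dimensional complex vector space,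
and a prime ideal `𝔪` of `R`: there is a common eigenvector whose eigencharacter has kernel
contained in `𝔪`. -/
theorem FA_S49_exists_eigenvector {R : Type*} [CommRing R] {V : Type*} [AddCommGroup V]
    [Module ℂ V] [FiniteDimensional ℂ V] (ρ : R →+* Module.End ℂ V)
    (hρ : Function.Injective ρ) (𝔪 : Ideal R) [𝔪.IsPrime] :
    ∃ (g : V) (χ : R → ℂ), g ≠ 0 ∧ (∀ t, ρ t g = χ t • g) ∧ ∀ t, χ t = 0 → t ∈ 𝔪 := by
  have hV : (⊤ : Submodule ℂ V) ≠ ⊥ := by
    intro h
    -- then `V` is trivial, so `ρ 1 = ρ 0`, so `1 = 0` in `R`, contradiction with `𝔪` proper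
    have hsub : ∀ v : V, v = 0 := fun v => by
      have : v ∈ (⊤ : Submodule ℂ V) := Submodule.mem_top
      rw [h] at this
      exact (Submodule.mem_bot ℂ).1 this
    have h10 : ρ 1 = ρ 0 := LinearMap.ext fun v => by rw [hsub (ρ 1 v), hsub (ρ 0 v)]
    have : (1 : R) ∈ 𝔪 := by rw [hρ h10]; exact 𝔪.zero_mem
    exact (Ideal.IsPrime.ne_top inferInstance) ((Ideal.eq_top_iff_one 𝔪).2 this)
  refine FA_S49_exists_eigenvector_aux ρ 𝔪 _ ⊤ rfl hV (fun _ _ _ => Submodule.mem_top) ?_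
  intro t ht
  have : ρ t = ρ 0 := LinearMap.ext fun v => by rw [ht v Submodule.mem_top, map_zero]; rfl
  rw [hρ this]
  exact 𝔪.zero_mem

end Fermat.Agent.S49
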