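import Fermat.Agent.S49.QExp
import Fermat.Prelude.Def_CuspForm_HeckeEvalForms
import Fermat.Prelude.Thm_ModularForm_sturm_bound_Gamma0

/-!
# Hecke half of the Deligne–Serre lifting lemma (for `Fermat.Agent.S49`)
-/

set_option autoImplicit false

namespace Fermat.Agent.S49

open CuspForm ModularFormClass CongruenceSubgroup UpperHalfPlane EisensteinWeightOne

variable {N : ℕ} {k : ℤ}

/-- (H1) The space of cusp forms of weight `k` on `Γ₀(N)` is finite-dimensional (Sturm bound). -/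
theorem FA_S49_finiteDimensional (N : ℕ) [NeZero N] (k : ℤ) :
    FiniteDimensional ℂ (CuspForm (Gamma0 N) k) := by
  let B : ℕ := (k * (Gamma0 N).index).toNat / 12
  let φ : CuspForm (Gamma0 N) k →ₗ[ℂ] (Fin (B + 1) → ℂ) :=
    LinearMap.pi fun i => FA_S49_qCoeffLin N k i
  have hφ : Function.Injective φ := by
    refine (injective_iff_map_eq_zero φ).2 fun f hf => ?_
    have hF : (CuspForm.toModularFormₗ f : ModularForm (Gamma0 N) k) = 0 := by
      apply ModularForm.sturm_bound_Gamma0 N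
      intro n hn
      have := congrFun hf ⟨n, Nat.lt_succ_of_le hn⟩
      have h2 : (PowerSeries.coeff n) (qExpansion 1 ⇑f) = 0 := by
        simpa [φ, qCoeff] using this
      exact h2
    have hinj := CuspForm.toModularFormₗ_injective
      (Γ := (Gamma0 N : Subgroup (GL (Fin 2) ℝ))) (k := k)
    apply hinj
    rw [hF, _root_.map_zero]
  exact FiniteDimensional.of_injective φ hφ

/-- Integer q-expansion coefficients. -/
def FA_S49_IntC (f : CuspForm (Gamma0 N) k) : Prop :=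
  ∀ n : ℕ, ∃ m : ℤ, qCoeff ⇑f n = (m : ℂ)

/-- q-expansion coefficients in `3ℤ`. -/
def FA_S49_Div3 (f : CuspForm (Gamma0 N) k) : Prop :=
  ∀ n : ℕ, ∃ m : ℤ, qCoeff ⇑f n = 3 * (m : ℂ)

theorem FA_S49_qCoeff_zero_form (n : ℕ) : qCoeff ⇑(0 : CuspForm (Gamma0 N) k) n = 0 :=
  (FA_S49_qCoeffLin N k n).map_zero

theorem FA_S49_qCoeff_sub (f g : CuspForm (Gamma0 N) k) (n : ℕ) :
    qCoeff ⇑(f - g) n = qCoeff ⇑f n - qCoeff ⇑g n :=
  (FA_S49_qCoeffLin N k n).map_sub f g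

theorem FA_S49_qCoeff_neg (f : CuspForm (Gamma0 N) k) (n : ℕ) :
    qCoeff ⇑(-f) n = - qCoeff ⇑f n :=
  (FA_S49_qCoeffLin N k n).map_neg f

theorem FA_S49_qCoeff_zsmul (c : ℤ) (f : CuspForm (Gamma0 N) k) (n : ℕ) :
    qCoeff ⇑(c • f) n = (c : ℂ) * qCoeff ⇑f n := by
  have : c • f = (c : ℂ) • f := by
    rw [Int.cast_smul_eq_zsmul]
  rw [this, FA_S49_qCoeff_smul]

theorem FA_S49_IntC_zero : FA_S49_IntC (0 : CuspForm (Gamma0 N) k) :=
  fun n => ⟨0, by rw [FA_S49_qCoeff_zero_form]; simp⟩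

theorem FA_S49_IntC_add {f g : CuspForm (Gamma0 N) k} (hf : FA_S49_IntC f)
    (hg : FA_S49_IntC g) : FA_S49_IntC (f + g) := fun n => by
  obtain ⟨a, ha⟩ := hf n
  obtain ⟨b, hb⟩ := hg n
  exact ⟨a + b, by rw [FA_S49_qCoeff_add, ha, hb]; push_cast; ring⟩

theorem FA_S49_IntC_zsmul (c : ℤ) {f : CuspForm (Gamma0 N) k} (hf : FA_S49_IntC f) :
    FA_S49_IntC (c • f) := fun n => by
  obtain ⟨a, ha⟩ := hf n
  exact ⟨c * a, by rw [FA_S49_qCoeff_zsmul, ha]; push_cast; ring⟩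

theorem FA_S49_mem_intLattice_iff (f : CuspForm (Gamma0 N) k) :
    f ∈ CuspForm.intLattice N k ↔ FA_S49_IntC f := by
  constructor
  · intro hf
    unfold CuspForm.intLattice at hf
    induction hf using Submodule.span_induction with
    | mem x hx => exact hx
    | zero => exact FA_S49_IntC_zero
    | add x y _ _ hx hy => exact FA_S49_IntC_add hx hy
    | smul c x _ hx => exact FA_S49_IntC_zsmul c hx
  · intro hf
    exact Submodule.subset_span hf

theorem FA_S49_mem_qIntegralSet_iff (f : CuspForm (Gamma0 N) 2) :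
    f ∈ CuspForm.qIntegralSet N ↔ FA_S49_IntC f := by
  unfold CuspForm.qIntegralSet FA_S49_IntC
  simp only [Set.mem_ofPred_eq]
  refine forall_congr' fun n => ?_
  rw [Subring.mem_bot]
  constructor
  · rintro ⟨m, hm⟩; exact ⟨m, hm.symm⟩
  · rintro ⟨m, hm⟩; exact ⟨m, hm.symm⟩

/-- Hecke operators preserve integrality of q-expansions. -/
theorem FA_S49_IntC_hecke [NeZero N] {S : Set ℕ}
    {t : Module.End ℂ (CuspForm (Gamma0 N) 2)} (ht : t ∈ CuspForm.heckeAlgebra N 2 S)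
    {f : CuspForm (Gamma0 N) 2} (hf : FA_S49_IntC f) : FA_S49_IntC (t f) :=
  (FA_S49_mem_intLattice_iff _).1
    (CuspForm.mem_intLattice_of_mem_heckeAlgebra (by norm_num) ht ((FA_S49_mem_intLattice_iff _).2 hf))

theorem FA_S49_Div3_iff (f : CuspForm (Gamma0 N) k) :
    FA_S49_Div3 f ↔ ∃ h : CuspForm (Gamma0 N) k, FA_S49_IntC h ∧ f = (3 : ℤ) • h := by
  constructor
  · intro hf
    refine ⟨((3 : ℂ)⁻¹) • f, fun n => ?_, ?_⟩
    · obtain ⟨m, hm⟩ := hf n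
      exact ⟨m, by rw [FA_S49_qCoeff_smul, hm]; field_simp⟩
    · rw [← Int.cast_smul_eq_zsmul ℂ, smul_smul]
      norm_num
  · rintro ⟨h, hh, rfl⟩ n
    obtain ⟨m, hm⟩ := hh n
    exact ⟨m, by rw [FA_S49_qCoeff_zsmul, hm]; push_cast; ring⟩

theorem FA_S49_Div3_zero : FA_S49_Div3 (0 : CuspForm (Gamma0 N) k) :=
  fun n => ⟨0, by rw [FA_S49_qCoeff_zero_form]; simp⟩

theorem FA_S49_Div3_add {f g : CuspForm (Gamma0 N) k} (hf : FA_S49_Div3 f)
    (hg : FA_S49_Div3 g) : FA_S49_Div3 (f + g) := fun n => by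
  obtain ⟨a, ha⟩ := hf n
  obtain ⟨b, hb⟩ := hg n
  exact ⟨a + b, by rw [FA_S49_qCoeff_add, ha, hb]; push_cast; ring⟩

theorem FA_S49_Div3_zsmul (c : ℤ) {f : CuspForm (Gamma0 N) k} (hf : FA_S49_Div3 f) :
    FA_S49_Div3 (c • f) := fun n => by
  obtain ⟨a, ha⟩ := hf n
  exact ⟨c * a, by rw [FA_S49_qCoeff_zsmul, ha]; push_cast; ring⟩

/-- Hecke operators preserve `3L`. -/
theorem FA_S49_Div3_hecke [NeZero N] {S : Set ℕ}
    {t : Module.End ℂ (CuspForm (Gamma0 N) 2)} (ht : t ∈ CuspForm.heckeAlgebra N 2 S)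
    {f : CuspForm (Gamma0 N) 2} (hf : FA_S49_Div3 f) : FA_S49_Div3 (t f) := by
  obtain ⟨h, hh, rfl⟩ := (FA_S49_Div3_iff f).1 hf
  rw [(FA_S49_Div3_iff _)]
  refine ⟨t h, FA_S49_IntC_hecke ht hh, ?_⟩
  rw [← Int.cast_smul_eq_zsmul ℂ, ← Int.cast_smul_eq_zsmul ℂ, map_smul]

end Fermat.Agent.S49
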