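import Fermat.Agent.S49.Hecke

/-!
# The mod-3 eigenvector `f₀` and the maximal ideal `𝔪` (for `Fermat.Agent.S49`)
-/

set_option autoImplicit false

namespace Fermat.Agent.S49

open CuspForm ModularFormClass CongruenceSubgroup UpperHalfPlane EisensteinWeightOne

variable {N : ℕ}

/-- `E_{1,χ} ≡ 1 mod 3`, hence `bridgeProduct a ≡ Σ a n qⁿ mod 3`. -/
theorem FA_S49_bridge_coeff (a : ℕ → ℤ) (n : ℕ) :
    (3 : ℤ) ∣ (bridgeProduct a).coeff n - a n := by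
  have hE : e1Chi3In ℤ = 1 + (3 : PowerSeries ℤ) *
      PowerSeries.mk (fun n => if n = 0 then 0 else 2 * sigmaChi n) := by
    ext m
    have h3 : (3 : PowerSeries ℤ) = PowerSeries.C (3 : ℤ) := by
      simp
    rw [h3]
    simp only [e1Chi3In, e1Chi3, PowerSeries.coeff_map, PowerSeries.coeff_mk, map_add,
      PowerSeries.coeff_one, PowerSeries.coeff_C_mul]
    split_ifs with h
    · simp
    · simp
      ring
  unfold bridgeProduct
  rw [hE, mul_add, mul_one, map_add, PowerSeries.coeff_mk, add_sub_cancel_left]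
  have h3 : (3 : PowerSeries ℤ) = PowerSeries.C (3 : ℤ) := by
    simp
  rw [h3, mul_left_comm, PowerSeries.coeff_C_mul]
  exact dvd_mul_right _ _

theorem FA_S49_chi_mod3 (ℓ : ℕ) : (3 : ℤ) ∣ (ℓ : ℤ) - chiNegThree ℓ := by
  unfold chiNegThree
  split_ifs <;> omega

/-- The ring hom `ρ : ℤ[X_ℓ] → End(S₂(Γ₀(N)))`, `X_ℓ ↦ T_ℓ` or `U_ℓ`. -/
noncomputable def FA_S49_rho (N : ℕ) [NeZero N] :
    ModularCurve.HeckeAlg →+* Module.End ℂ (CuspForm (Gamma0 N) 2) :=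
  (CuspForm.heckeAlgebra N 2 ∅).val.toRingHom.comp (CuspForm.heckeEvalForms N 2)

theorem FA_S49_rho_mem [NeZero N] (P : ModularCurve.HeckeAlg) :
    FA_S49_rho N P ∈ CuspForm.heckeAlgebra N 2 ∅ :=
  (CuspForm.heckeEvalForms N 2 P).2

theorem FA_S49_rho_X_of_not_dvd [NeZero N] {ℓ : Nat.Primes} (h : ¬ (ℓ : ℕ) ∣ N) :
    FA_S49_rho N (MvPolynomial.X ℓ) = CuspForm.heckeTLin 2 ℓ.2 h := by
  have := CuspForm.heckeEvalForms_heckeGen_of_not_dvd (N := N) (k := 2) h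
  unfold ModularCurve.heckeGen at this
  simp only [FA_S49_rho, RingHom.coe_comp, Function.comp_apply, this]
  rfl

theorem FA_S49_rho_X_of_dvd [NeZero N] {ℓ : Nat.Primes} (h : (ℓ : ℕ) ∣ N) :
    FA_S49_rho N (MvPolynomial.X ℓ) = CuspForm.heckeULin 2 h := by
  have := CuspForm.heckeEvalForms_heckeGen_of_dvd (N := N) (k := 2) h
  unfold ModularCurve.heckeGen at this
  simp only [FA_S49_rho, RingHom.coe_comp, Function.comp_apply, this]
  rfl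

theorem FA_S49_rho_C [NeZero N] (c : ℤ) (f : CuspForm (Gamma0 N) 2) :
    FA_S49_rho N (MvPolynomial.C c) f = c • f := by
  have := CuspForm.heckeEvalForms_C N 2 c
  simp only [FA_S49_rho, RingHom.coe_comp, Function.comp_apply, this]
  change (algebraMap ℤ (Module.End ℂ (CuspForm (Gamma0 N) 2)) c) f = c • f
  rw [Algebra.algebraMap_eq_smul_one, LinearMap.smul_apply, Module.End.one_apply]

/-- The q-expansion of `ρ(X_ℓ) f`. -/
theorem FA_S49_qCoeff_rho_X [NeZero N] (ℓ : Nat.Primes) (f : CuspForm (Gamma0 N) 2) (n : ℕ) :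
    qCoeff ⇑(FA_S49_rho N (MvPolynomial.X ℓ) f) n =
      qCoeff ⇑f (n * ℓ) +
        (if (ℓ : ℕ) ∣ N then 0 else if (ℓ : ℕ) ∣ n then (ℓ : ℂ) * qCoeff ⇑f (n / ℓ) else 0) := by
  by_cases h : (ℓ : ℕ) ∣ N
  · rw [FA_S49_rho_X_of_dvd h, FA_S49_qCoeff_heckeULin ℓ.2 h, if_pos h, add_zero]
  · rw [FA_S49_rho_X_of_not_dvd h, FA_S49_qCoeff_heckeTLin ℓ.2 h, if_neg h]
    norm_num

end Fermat.Agent.S49

namespace Fermat.Agent.S49

open CuspForm ModularFormClass CongruenceSubgroup UpperHalfPlane EisensteinWeightOne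

variable {N : ℕ}

/-- The evaluation `ℤ[X_ℓ] → ℤ`, `X_ℓ ↦ a ℓ`. -/
noncomputable def FA_S49_ev (a : ℕ → ℤ) : ModularCurve.HeckeAlg →+* ℤ :=
  MvPolynomial.eval fun ℓ : Nat.Primes => a ℓ

/-- The residual character `θ : ℤ[X_ℓ] → 𝔽₃`, `X_ℓ ↦ a ℓ mod 3`. -/
noncomputable def FA_S49_theta (a : ℕ → ℤ) : ModularCurve.HeckeAlg →+* ZMod 3 :=
  (Int.castRingHom (ZMod 3)).comp (FA_S49_ev a)

theorem FA_S49_theta_surjective (a : ℕ → ℤ) : Function.Surjective (FA_S49_theta a) := by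
  intro z
  obtain ⟨c, rfl⟩ := ZMod.intCast_surjective z
  exact ⟨MvPolynomial.C c, by simp [FA_S49_theta, FA_S49_ev]⟩

instance FA_S49_ker_theta_isMaximal (a : ℕ → ℤ) : (RingHom.ker (FA_S49_theta a)).IsMaximal :=
  RingHom.ker_isMaximal_of_surjective _ (FA_S49_theta_surjective a)

theorem FA_S49_mem_ker_theta_iff (a : ℕ → ℤ) (P : ModularCurve.HeckeAlg) :
    P ∈ RingHom.ker (FA_S49_theta a) ↔ (3 : ℤ) ∣ FA_S49_ev a P := by
  rw [RingHom.mem_ker]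
  simp only [FA_S49_theta, RingHom.coe_comp, Function.comp_apply, eq_intCast]
  exact ZMod.intCast_zmod_eq_zero_iff_dvd _ 3

theorem FA_S49_three_mem_ker_theta (a : ℕ → ℤ) :
    (3 : ModularCurve.HeckeAlg) ∈ RingHom.ker (FA_S49_theta a) := by
  rw [FA_S49_mem_ker_theta_iff]
  simp [FA_S49_ev]

theorem FA_S49_C_three_mem_ker_theta (a : ℕ → ℤ) :
    (MvPolynomial.C (3 : ℤ) : ModularCurve.HeckeAlg) ∈ RingHom.ker (FA_S49_theta a) := by
  rw [FA_S49_mem_ker_theta_iff]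
  simp [FA_S49_ev]

theorem FA_S49_X_sub_C_mem_ker_theta (a : ℕ → ℤ) (ℓ : Nat.Primes) :
    (MvPolynomial.X ℓ - MvPolynomial.C (a ℓ) : ModularCurve.HeckeAlg) ∈
      RingHom.ker (FA_S49_theta a) := by
  rw [FA_S49_mem_ker_theta_iff]
  simp [FA_S49_ev]

/-- (H3b) `f₀` is an eigenvector mod `3` of `ρ(X_ℓ)` with eigenvalue `a ℓ`. -/
theorem FA_S49_rho_X_mod3 [NeZero N] {a : ℕ → ℤ}
    (heig : FormalHecke.IsEigensystem
      (fun ℓ => if ℓ ∣ N then 0 else ((chiNegThree ℓ : ℤ) : ℤ)) a)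
    {f₀ : CuspForm (Gamma0 N) 2} {af : ℕ → ℤ} (haf : ∀ n, (af n : ℂ) = qCoeff ⇑f₀ n)
    (hmod : ∀ n, (3 : ℤ) ∣ af n - a n) (ℓ : Nat.Primes) :
    FA_S49_Div3 (FA_S49_rho N (MvPolynomial.X ℓ) f₀ - (a ℓ) • f₀) := by
  intro n
  have key : (3 : ℤ) ∣ af (n * ℓ) +
      (if (ℓ : ℕ) ∣ N then 0 else if (ℓ : ℕ) ∣ n then (ℓ : ℤ) * af (n / ℓ) else 0)
      - a ℓ * af n := by
    have h1 := heig.2 ℓ ℓ.2 n
    simp only at h1
    rw [mul_comm (ℓ : ℕ) n] at h1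
    obtain ⟨u, hu⟩ := hmod (n * ℓ)
    obtain ⟨v, hv⟩ := hmod n
    obtain ⟨w, hw⟩ := hmod (n / ℓ)
    obtain ⟨x, hx⟩ := FA_S49_chi_mod3 ℓ
    by_cases hN : (ℓ : ℕ) ∣ N
    · simp only [if_pos hN, zero_mul, add_zero] at h1 ⊢
      refine ⟨u - a ℓ * v, ?_⟩
      linear_combination hu - a ℓ * hv + h1
    · simp only [if_neg hN] at h1 ⊢
      by_cases hn : (ℓ : ℕ) ∣ n
      · simp only [if_pos hn] at h1 ⊢
        refine ⟨u - a ℓ * v + ℓ * w + x * a (n / ℓ), ?_⟩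
        linear_combination hu - a ℓ * hv + h1 + (ℓ : ℤ) * hw + a (n / ℓ) * hx
      · simp only [if_neg hn, mul_zero, add_zero] at h1 ⊢
        refine ⟨u - a ℓ * v, ?_⟩
        linear_combination hu - a ℓ * hv + h1
  obtain ⟨m, hm⟩ := key
  refine ⟨m, ?_⟩
  rw [FA_S49_qCoeff_sub, FA_S49_qCoeff_zsmul, FA_S49_qCoeff_rho_X, ← haf, ← haf, ← haf]
  have hm' := congrArg (Int.cast : ℤ → ℂ) hm
  push_cast at hm'
  rw [← hm']

/-- (H3c) `f₀` is an eigenvector mod `3` of every `ρ P` with eigenvalue `ev P`. -/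
theorem FA_S49_rho_mod3 [NeZero N] {a : ℕ → ℤ}
    (heig : FormalHecke.IsEigensystem
      (fun ℓ => if ℓ ∣ N then 0 else ((chiNegThree ℓ : ℤ) : ℤ)) a)
    {f₀ : CuspForm (Gamma0 N) 2} {af : ℕ → ℤ} (haf : ∀ n, (af n : ℂ) = qCoeff ⇑f₀ n)
    (hmod : ∀ n, (3 : ℤ) ∣ af n - a n) (P : ModularCurve.HeckeAlg) :
    FA_S49_Div3 (FA_S49_rho N P f₀ - (FA_S49_ev a P) • f₀) := by
  induction P using MvPolynomial.induction_on with
  | C c =>
    rw [FA_S49_rho_C]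
    simp only [FA_S49_ev, MvPolynomial.eval_C, sub_self]
    exact FA_S49_Div3_zero
  | add P Q hP hQ =>
    have : FA_S49_rho N (P + Q) f₀ - (FA_S49_ev a (P + Q)) • f₀ =
        (FA_S49_rho N P f₀ - (FA_S49_ev a P) • f₀) +
          (FA_S49_rho N Q f₀ - (FA_S49_ev a Q) • f₀) := by
      rw [map_add, map_add, LinearMap.add_apply, add_smul]
      abel
    rw [this]
    exact FA_S49_Div3_add hP hQ
  | mul_X P ℓ hP =>
    have : FA_S49_rho N (P * MvPolynomial.X ℓ) f₀ - (FA_S49_ev a (P * MvPolynomial.X ℓ)) • f₀ =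
        FA_S49_rho N P (FA_S49_rho N (MvPolynomial.X ℓ) f₀ - (a ℓ) • f₀) +
          (a ℓ) • (FA_S49_rho N P f₀ - (FA_S49_ev a P) • f₀) := by
      have hev : FA_S49_ev a (MvPolynomial.X ℓ) = a ℓ := by simp [FA_S49_ev]
      rw [map_mul, map_mul, Module.End.mul_apply, map_sub, hev, smul_sub, smul_smul,
        mul_comm (a ℓ)]
      rw [← Int.cast_smul_eq_zsmul ℂ (a ℓ) f₀, map_smul, Int.cast_smul_eq_zsmul]
      abel
    rw [this]
    exact FA_S49_Div3_add (FA_S49_Div3_hecke (FA_S49_rho_mem P) (FA_S49_rho_X_mod3 heig haf hmod ℓ))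
      (FA_S49_Div3_zsmul _ hP)

/-- (H3d) `ker ρ ≤ 𝔪 = ker θ`. -/
theorem FA_S49_ker_rho_le [NeZero N] {a : ℕ → ℤ}
    (heig : FormalHecke.IsEigensystem
      (fun ℓ => if ℓ ∣ N then 0 else ((chiNegThree ℓ : ℤ) : ℤ)) a)
    {f₀ : CuspForm (Gamma0 N) 2} {af : ℕ → ℤ} (haf : ∀ n, (af n : ℂ) = qCoeff ⇑f₀ n)
    (hmod : ∀ n, (3 : ℤ) ∣ af n - a n) :
    RingHom.ker (FA_S49_rho N) ≤ RingHom.ker (FA_S49_theta a) := by
  intro P hP
  rw [RingHom.mem_ker] at hP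
  rw [FA_S49_mem_ker_theta_iff]
  have h := FA_S49_rho_mod3 heig haf hmod P
  rw [hP, LinearMap.zero_apply, zero_sub] at h
  obtain ⟨m, hm⟩ := h 1
  rw [FA_S49_qCoeff_neg, FA_S49_qCoeff_zsmul, ← haf] at hm
  have hm' : -(FA_S49_ev a P * af 1) = 3 * m := by exact_mod_cast hm
  obtain ⟨u, hu⟩ := hmod 1
  rw [heig.1] at hu
  refine ⟨-m - FA_S49_ev a P * u, ?_⟩
  linear_combination -hm' - FA_S49_ev a P * hu

end Fermat.Agent.S49
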