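import Mathlib
import Fermat.Prelude.Def_CuspForm_HeckeAlgebra
import Fermat.Prelude.Def_CuspForm_IntegralStructure
import Fermat.Prelude.Def_CuspForm_IntegralLattice
import Fermat.Prelude.Def_FormalHecke_Eigensystem
import Fermat.Prelude.Thm_CongruenceSubgroup_one_mem_strictPeriods_Gamma0
import Fermat.Prelude.Thm_ModularFormClass_qCoeff_heckeT
import Fermat.Prelude.Thm_ModularFormClass_qCoeff_heckeU
import Fermat.Prelude.Thm_CuspForm_intLattice_fg
import Fermat.Prelude.Thm_CuspForm_mem_intLattice_of_mem_heckeAlgebra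

/-!
# q-expansion coefficients of weight-2 cusp forms on `Γ₀(N)` and Hecke operators
(for `Fermat.Agent.S49`)
-/

set_option autoImplicit false

namespace Fermat.Agent.S49

open CuspForm ModularFormClass CongruenceSubgroup UpperHalfPlane

variable {N : ℕ} {k : ℤ}

theorem FA_S49_hΓ (N : ℕ) :
    (1 : ℝ) ∈ (Subgroup.map (Matrix.SpecialLinearGroup.mapGL ℝ) (Gamma0 N)).strictPeriods :=
  CongruenceSubgroup.one_mem_strictPeriods_Gamma0 N

theorem FA_S49_qCoeff_add (f g : CuspForm (Gamma0 N) k) (n : ℕ) :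
    qCoeff ⇑(f + g) n = qCoeff ⇑f n + qCoeff ⇑g n := by
  simp only [qCoeff, CuspForm.coe_add]
  rw [ModularForm.qExpansion_add one_pos (FA_S49_hΓ N) f g, map_add]

theorem FA_S49_qCoeff_smul (c : ℂ) (f : CuspForm (Gamma0 N) k) (n : ℕ) :
    qCoeff ⇑(c • f) n = c * qCoeff ⇑f n := by
  have h1 : ⇑(c • f) = c • ⇑f := by
    ext z
    simp
  simp only [qCoeff, h1]
  rw [ModularForm.qExpansion_smul one_pos (FA_S49_hΓ N) c f]
  simp

/-- The `n`-th q-expansion coefficient as a linear functional. -/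
noncomputable def FA_S49_qCoeffLin (N : ℕ) (k : ℤ) (n : ℕ) : CuspForm (Gamma0 N) k →ₗ[ℂ] ℂ where
  toFun f := qCoeff ⇑f n
  map_add' f g := FA_S49_qCoeff_add f g n
  map_smul' c f := by
    simp only [RingHom.id_apply, smul_eq_mul]
    exact FA_S49_qCoeff_smul c f n

@[simp] theorem FA_S49_qCoeffLin_apply (n : ℕ) (f : CuspForm (Gamma0 N) k) :
    FA_S49_qCoeffLin N k n f = qCoeff ⇑f n := rfl

theorem FA_S49_qCoeff_zero (f : CuspForm (Gamma0 N) k) : qCoeff ⇑f 0 = 0 :=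
  CuspFormClass.qExpansion_coeff_zero f one_pos (FA_S49_hΓ N)

theorem FA_S49_eq_zero_of_qCoeff (f : CuspForm (Gamma0 N) k) (h : ∀ n, qCoeff ⇑f n = 0) :
    f = 0 := by
  have h0 : qExpansion 1 ⇑f = 0 := by
    ext n
    simpa [qCoeff] using h n
  have hF : (CuspForm.toModularFormₗ f : ModularForm (Gamma0 N) k) = 0 := by
    rw [← ModularForm.qExpansion_eq_zero_iff one_pos (FA_S49_hΓ N)]
    exact h0
  have hinj := CuspForm.toModularFormₗ_injective
    (Γ := (Gamma0 N : Subgroup (GL (Fin 2) ℝ))) (k := k)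
  apply hinj
  rw [hF, _root_.map_zero]

theorem FA_S49_qCoeff_heckeTLin {p : ℕ} (hp : p.Prime) (hpN : ¬ p ∣ N)
    (f : CuspForm (Gamma0 N) k) (n : ℕ) :
    qCoeff ⇑(CuspForm.heckeTLin k hp hpN f) n =
      qCoeff ⇑f (n * p) + if p ∣ n then (p : ℂ) ^ (k - 1) * qCoeff ⇑f (n / p) else 0 := by
  rw [CuspForm.coe_heckeTLin_apply, ModularFormClass.qCoeff_heckeT f (FA_S49_hΓ N) hp.ne_zero n]
  rfl

theorem FA_S49_qCoeff_heckeULin [NeZero N] {p : ℕ} (hp : p.Prime) (hpN : p ∣ N)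
    (f : CuspForm (Gamma0 N) k) (n : ℕ) :
    qCoeff ⇑(CuspForm.heckeULin k hpN f) n = qCoeff ⇑f (n * p) := by
  rw [CuspForm.coe_heckeULin_apply, ModularFormClass.qCoeff_heckeU f (FA_S49_hΓ N) hp.ne_zero n]
  rfl

end Fermat.Agent.S49
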